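/-
Shim for the import `Fermat.Agent.S54_helper34.FrobeniusExists` of `GR/W/RedFin.lean`
(helper34's local file was not landed; board 5049).  The statement is `Common_helper32`'s
`exists_isFrobeniusAt_of_liesOver`, under the name used by `RedFin.lean`.
-/
import Fermat.Agent.Common_helper32.FrobeniusExists

set_option autoImplicit false

namespace Fermat.Agent.S54_helper34

/-- Every valuation subring of `ℚ̄` over a prime `ℓ` has a Frobenius element. -/
theorem exists_isFrobeniusAt (A : ValuationSubring (AlgebraicClosure ℚ)) (ℓ : ℕ) (hℓ : ℓ.Prime)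
    (hA : A.LiesOverPrime ℓ) :
    ∃ σ : AlgebraicClosure ℚ ≃ₐ[ℚ] AlgebraicClosure ℚ, A.IsFrobeniusAt σ ℓ :=
  Fermat.Agent.Common_helper32.exists_isFrobeniusAt_of_liesOver A ℓ hℓ hA

end Fermat.Agent.S54_helper34
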